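/-
S55 / LOC / block LUN (architect helper56): unramified cocycles with unit values are coboundaries
(field `L7` of `LocPkg`).  Definitions:
* `lvlSup 𝓝 I`  : the level system `{I ⊔ N : N ∈ 𝓝}` ("the unramified levels"),
* `fixSub U I`  : the `I`-invariant elements of a stable subgroup `U` ("units of `K^ur`"),
* `UnrAx 𝓝 K`   : the axioms used by the abstract theorem.
-/
import Fermat.Agent.S55.Loc.Abs.Defs

set_option autoImplicit false

namespace Fermat.Agent.S55.Loc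

variable {Γ : Type} [Group Γ]

/-- The level system `{I ⊔ N : N ∈ 𝓝}` attached to a normal subgroup `I`. -/
def lvlSup (𝓝 : LevelSys Γ) (I : Subgroup Γ) (hI : I.Normal) : LevelSys Γ where
  carrier := (fun N => I ⊔ N) '' 𝓝.carrier
  nonempty := 𝓝.nonempty.image _
  normal := by
    rintro _ ⟨N, hN, rfl⟩
    have := 𝓝.normal N hN
    exact Subgroup.sup_normal I N
  finiteIndex := by
    rintro _ ⟨N, hN, rfl⟩
    have := 𝓝.finiteIndex N hN
    exact Subgroup.finiteIndex_of_le (le_sup_right : N ≤ I ⊔ N)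
  directed := by
    rintro _ ⟨N, hN, rfl⟩ _ ⟨N', hN', rfl⟩
    obtain ⟨N'', hN'', hle⟩ := 𝓝.directed N hN N' hN'
    exact ⟨_, ⟨N'', hN'', rfl⟩, le_inf (sup_le_sup_left (hle.trans inf_le_left) I)
      (sup_le_sup_left (hle.trans inf_le_right) I)⟩

theorem mem_lvlSup {𝓝 : LevelSys Γ} {I : Subgroup Γ} {hI : I.Normal} {M : Subgroup Γ} :
    M ∈ (lvlSup 𝓝 I hI).carrier ↔ ∃ N ∈ 𝓝.carrier, I ⊔ N = M := Iff.rfl

variable {K : Type} [AddCommGroup K] [DistribMulAction Γ K]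

/-- The `I`-invariant elements of a stable subgroup `U` (`I` normal). -/
def fixSub (U : GSub Γ K) (I : Subgroup Γ) (hI : I.Normal) : GSub Γ K where
  carrier := {x | x ∈ U.toAddSubgroup ∧ ∀ τ ∈ I, τ • x = x}
  zero_mem' := ⟨U.toAddSubgroup.zero_mem, fun τ _ => smul_zero τ⟩
  add_mem' := by
    rintro a b ⟨ha, ha'⟩ ⟨hb, hb'⟩
    exact ⟨U.toAddSubgroup.add_mem ha hb, fun τ hτ => by rw [smul_add, ha' τ hτ, hb' τ hτ]⟩
  neg_mem' := by
    rintro a ⟨ha, ha'⟩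
    exact ⟨U.toAddSubgroup.neg_mem ha, fun τ hτ => by rw [smul_neg, ha' τ hτ]⟩
  smul_mem' := by
    rintro g a ⟨ha, ha'⟩
    refine ⟨U.smul_mem' g ha, fun τ hτ => ?_⟩
    have h1 : g⁻¹ * τ * g ∈ I := by
      have := hI.conj_mem τ hτ g⁻¹
      simpa using this
    calc τ • g • a = g • (g⁻¹ * τ * g) • a := by simp [mul_smul]
      _ = g • a := by rw [ha' _ h1]

theorem mem_fixSub {U : GSub Γ K} {I : Subgroup Γ} {hI : I.Normal} {x : K} :
    x ∈ (fixSub U I hI).toAddSubgroup ↔ x ∈ U.toAddSubgroup ∧ ∀ τ ∈ I, τ • x = x := Iff.rfl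

/-- Frobenius data for a family of characters `d` (shared by LCN (d) and LUN).  Dictionary:
`I` = inertia, `φ` = a Frobenius element. -/
structure FrobAx (𝓝 : LevelSys Γ) (d : ∀ n : ℕ, Γ →* Multiplicative (ZMod n)) where
  /-- the inertia subgroup -/
  I : Subgroup Γ
  I_normal : I.Normal
  d_I : ∀ (n : ℕ), ∀ τ ∈ I, d n τ = 1
  /-- a Frobenius element -/
  φ : Γ
  d_φ : ∀ n : ℕ, 0 < n → d n φ = Multiplicative.ofAdd 1
  /-- `Γ/I` is topologically generated by `φ` -/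
  dense : ∀ N ∈ 𝓝.carrier, ∀ g : Γ, ∃ i : ℤ, ∃ τ ∈ I, ∃ ν ∈ N, g = φ ^ i * τ * ν

/-- Units and a uniformiser of the maximal unramified extension `K^I`. -/
structure UnitAx (K : Type) [AddCommGroup K] [DistribMulAction Γ K] (I : Subgroup Γ) where
  /-- the units -/
  U : GSub Γ K
  /-- a uniformiser of `K^I`, fixed by `Γ` -/
  π : K
  π_fix : ∀ g : Γ, g • π = π
  π_free : ∀ k : ℤ, k • π ∈ U.toAddSubgroup → k = 0
  decomp : ∀ x : K, (∀ τ ∈ I, τ • x = x) → ∃ k : ℤ, x - k • π ∈ U.toAddSubgroup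

/-- THE AXIOMS of block LUN.  Dictionary (`Γ = Gv q`, `K = KL q`): `I` = inertia, `φ` = a Frobenius,
`d n` = the unramified character of degree `n`, `U` = the units at the chosen place, `π = q`. -/
structure UnrAx (𝓝 : LevelSys Γ) (K : Type) [AddCommGroup K] [DistribMulAction Γ K] where
  /-- the inertia subgroup -/
  I : Subgroup Γ
  I_normal : I.Normal
  /-- the unramified characters -/
  d : ∀ n : ℕ, Γ →* Multiplicative (ZMod n)
  d_open : ∀ n : ℕ, 0 < n → 𝓝.IsOpen (d n).ker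
  d_I : ∀ (n : ℕ), ∀ τ ∈ I, d n τ = 1
  /-- a Frobenius element -/
  φ : Γ
  d_φ : ∀ n : ℕ, 0 < n → d n φ = Multiplicative.ofAdd 1
  /-- `Γ/I` is topologically generated by `φ` -/
  dense : ∀ N ∈ 𝓝.carrier, ∀ g : Γ, ∃ i : ℤ, ∃ τ ∈ I, ∃ ν ∈ N, g = φ ^ i * τ * ν
  /-- the units -/
  U : GSub Γ K
  /-- a uniformiser of the maximal unramified extension, fixed by `Γ` -/
  π : K
  π_fix : ∀ g : Γ, g • π = π
  π_free : ∀ k : ℤ, k • π ∈ U.toAddSubgroup → k = 0
  decomp : ∀ x : K, (∀ τ ∈ I, τ • x = x) → ∃ k : ℤ, x - k • π ∈ U.toAddSubgroup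
  /-- Hilbert 90 -/
  H90 : ∀ (Y : Type) [MulAction Γ Y] [Finite Y] [SmoothSet 𝓝 Y] (y : Hsm 𝓝 (IndMod Y K) 1), y = 0
  /-- units are norms from unramified covers (`Y` transitive, unramified) -/
  unitNorm : ∀ (Y : Type) [MulAction Γ Y] [Finite Y] [SmoothSet 𝓝 Y]
    [MulAction.IsPretransitive Γ Y], (∀ τ ∈ I, ∀ y : Y, τ • y = y) → ∀ (n : ℕ) [NeZero n]
    (a : Hsm 𝓝 (IndMod Y K) 0), (∀ y, (Hsm.H0equiv a : IndMod Y K) y ∈ U.toAddSubgroup) →
    a ∈ Set.range (Hsm.map (𝓝 := 𝓝) (IndMod.push K (zProj Y (d n))) 0)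

namespace UnrAx

variable {𝓝 : LevelSys Γ} (ax : UnrAx 𝓝 K)

/-- The unramified level system. -/
abbrev lvl : LevelSys Γ := lvlSup 𝓝 ax.I ax.I_normal

/-- The units of the maximal unramified extension. -/
abbrev V : GSub Γ K := fixSub ax.U ax.I ax.I_normal

end UnrAx

end Fermat.Agent.S55.Loc
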