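/-
S55 / LOC / LUN, node LUN-1: the level system `lvlSup`.   Owner: helper117.
-/
import Fermat.Agent.S55.Loc.Unr.Defs

set_option autoImplicit false

namespace Fermat.Agent.S55.Loc

open Fermat.Agent.S55

variable {Γ : Type} [Group Γ]

section level

variable {𝓝 : LevelSys Γ} {I : Subgroup Γ} {hI : I.Normal}
variable {K : Type} [AddCommGroup K] [DistribMulAction Γ K]

theorem lvlSup_le : (lvlSup 𝓝 I hI).Le 𝓝 := by
  rintro _ ⟨N, hN, rfl⟩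
  exact ⟨N, hN, le_sup_right⟩

theorem isOpen_lvlSup_iff (M : Subgroup Γ) : (lvlSup 𝓝 I hI).IsOpen M ↔ 𝓝.IsOpen M ∧ I ≤ M := by
  constructor
  · rintro ⟨_, ⟨N, hN, rfl⟩, hle⟩
    exact ⟨⟨N, hN, le_sup_right.trans hle⟩, le_sup_left.trans hle⟩
  · rintro ⟨⟨N, hN, hle⟩, hIM⟩
    exact ⟨_, ⟨N, hN, rfl⟩, sup_le hIM hle⟩

theorem smooth_fixSub [Smooth 𝓝 K] (U : GSub Γ K) : Smooth (lvlSup 𝓝 I hI) (fixSub U I hI).Mod where
  exists_fix a := by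
    obtain ⟨N, hN, h⟩ := Smooth.exists_fix (𝓝 := 𝓝) ((fixSub U I hI).incl a)
    refine ⟨_, ⟨N, hN, rfl⟩, ?_⟩
    have hle : I ⊔ N ≤ MulAction.stabilizer Γ ((fixSub U I hI).incl a) :=
      sup_le (fun τ hτ => ((fixSub U I hI).incl_mem a).2 τ hτ) (fun n hn => h n hn)
    intro n hn
    apply (fixSub U I hI).incl_injective
    rw [GSub.incl_smul]
    exact hle hn

theorem smoothSet_lvlSup (Y : Type) [MulAction Γ Y] [SmoothSet 𝓝 Y]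
    (hY : ∀ τ ∈ I, ∀ y : Y, τ • y = y) : SmoothSet (lvlSup 𝓝 I hI) Y where
  exists_fix y := by
    obtain ⟨N, hN, h⟩ := SmoothSet.exists_fix (𝓝 := 𝓝) y
    refine ⟨_, ⟨N, hN, rfl⟩, ?_⟩
    have hle : I ⊔ N ≤ MulAction.stabilizer Γ y :=
      sup_le (fun τ hτ => hY τ hτ y) (fun n hn => h n hn)
    exact fun n hn => hle hn

theorem smoothSet_of_lvlSup (Y : Type) [MulAction Γ Y] [SmoothSet (lvlSup 𝓝 I hI) Y] :
    SmoothSet 𝓝 Y where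
  exists_fix y := by
    obtain ⟨_, ⟨N, hN, rfl⟩, h⟩ := SmoothSet.exists_fix (𝓝 := lvlSup 𝓝 I hI) y
    exact ⟨N, hN, fun n hn => h n ((le_sup_right : N ≤ I ⊔ N) hn)⟩

theorem smul_eq_of_smoothSet_lvlSup (Y : Type) [MulAction Γ Y] [SmoothSet (lvlSup 𝓝 I hI) Y] :
    ∀ τ ∈ I, ∀ y : Y, τ • y = y := by
  intro τ hτ y
  obtain ⟨_, ⟨N, hN, rfl⟩, h⟩ := SmoothSet.exists_fix (𝓝 := lvlSup 𝓝 I hI) y
  exact h τ ((le_sup_left : I ≤ I ⊔ N) hτ)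

end level

end Fermat.Agent.S55.Loc
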