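/-
S55 / LOC / LUN, node LUN-2 (helper72): pure cochain lemmas about `IsLevelAt`.
-/
import Fermat.Agent.S55.Inf.LowDeg

set_option autoImplicit false

namespace Fermat.Agent.S55.Loc

open Fermat.Agent.S55

variable {Γ : Type} [Group Γ]

section join

/-- the subgroup of all `x` such that right multiplication of any coordinate by `x` does not
change `f` -/
private def levelJoinSub {X : Type} {n : ℕ} (f : (Fin n → Γ) → X) : Subgroup Γ where
  carrier := {x | ∀ (g : Fin n → Γ) (i : Fin n), f (Function.update g i (g i * x)) = f g}
  one_mem' := fun g i => by rw [mul_one, Function.update_eq_self]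
  mul_mem' := by
    intro x y hx hy g i
    have h1 := hy (Function.update g i (g i * x)) i
    rw [Function.update_self, Function.update_idem, mul_assoc] at h1
    rw [h1]
    exact hx g i
  inv_mem' := by
    intro x hx g i
    have h1 := hx (Function.update g i (g i * x⁻¹)) i
    rw [Function.update_self, Function.update_idem, inv_mul_cancel_right,
      Function.update_eq_self] at h1
    exact h1.symm

private theorem levelJoin_le {X : Type} {n : ℕ} {N : Subgroup Γ} {f : (Fin n → Γ) → X}
    (h : IsLevelAt N f) : N ≤ levelJoinSub f := by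
  intro x hx g i
  refine h _ _ fun j => ?_
  by_cases hj : j = i
  · subst hj
    rw [Function.update_self, mul_inv_rev, inv_mul_cancel_right]
    exact N.inv_mem hx
  · rw [Function.update_of_ne hj, inv_mul_cancel]
    exact N.one_mem

theorem IsLevelAt.sup {X : Type} {n : ℕ} {N N' : Subgroup Γ} {f : (Fin n → Γ) → X}
    (h : IsLevelAt N f) (h' : IsLevelAt N' f) : IsLevelAt (N ⊔ N') f := by
  classical
  intro g k hgk
  have hle : N ⊔ N' ≤ levelJoinSub f := sup_le (levelJoin_le h) (levelJoin_le h')
  have key : ∀ s : Finset (Fin n), f (fun i => if i ∈ s then k i else g i) = f g := by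
    intro s
    induction s using Finset.induction_on with
    | empty => simp
    | insert a s ha ih =>
      have h1 := hle (hgk a) (fun i => if i ∈ s then k i else g i) a
      rw [ih] at h1
      rw [← h1]
      congr 1
      funext i
      by_cases hi : i = a
      · subst hi
        rw [Function.update_self, if_pos (Finset.mem_insert_self _ _), if_neg ha,
          mul_inv_cancel_left]
      · rw [Function.update_of_ne hi]
        simp only [Finset.mem_insert, hi, false_or]
  have h2 := key Finset.univ
  simp only [Finset.mem_univ, if_true] at h2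
  exact h2.symm

/-- the values of a 2-cocycle of normal level `M` are `M`-invariant -/
theorem smul_eq_of_isLevelAt_two {A : Type} [AddCommGroup A] [DistribMulAction Γ A]
    {M : Subgroup Γ} [M.Normal] {c : (Fin 2 → Γ) → A} (hc : IsLevelAt M c) (hd : dd A 2 c = 0)
    (g : Fin 2 → Γ) (m : Γ) (hm : m ∈ M) : m • c g = c g := by
  have h := congrFun hd ![m, g 0, g 1]
  rw [Inf.dd2] at h
  simp only [Matrix.cons_val_zero, Matrix.cons_val_one, Matrix.cons_val_two, Matrix.head_cons,
    Matrix.tail_cons, Pi.zero_apply] at h
  have hm1 : ∀ x : Γ, c ![m, x] = c ![1, 1] := by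
    intro x
    rw [← Inf.cocycle2_one_left hd x]
    refine hc _ _ fun i => ?_
    fin_cases i
    · change m⁻¹ * 1 ∈ M
      rw [mul_one]
      exact M.inv_mem hm
    · change x⁻¹ * x ∈ M
      rw [inv_mul_cancel]
      exact M.one_mem
  rw [Inf.IsLevelAt.two_left hc _ _ m hm, hm1, hm1, Inf.eta2] at h
  have h2 : m • c g - c g = 0 := by
    rw [← h]
    abel
  exact sub_eq_zero.1 h2

/-- a 1-cocycle of level `M` vanishes on `M` -/
theorem eq_zero_of_isLevelAt_one {A : Type} [AddCommGroup A] [DistribMulAction Γ A]
    {M : Subgroup Γ} {c : (Fin 1 → Γ) → A} (hc : IsLevelAt M c) (hd : dd A 1 c = 0)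
    (g : Fin 1 → Γ) (hg : g 0 ∈ M) : c g = 0 := by
  rw [← Inf.cocycle1_one hd]
  refine hc _ _ fun i => ?_
  fin_cases i
  change (g 0)⁻¹ * 1 ∈ M
  rw [mul_one]
  exact M.inv_mem hg

end join

end Fermat.Agent.S55.Loc
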