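/-
S55 / LOC / LUN-3 (architect helper56): a smooth 2-cocycle of `IndMod Y K` which factors through a
subgroup containing `I`, with values in `U`, comes from the unramified level system `lvlSup 𝓝 I`
with coefficients in the `I`-fixed part of `U`.
-/
import Fermat.Agent.S55.Loc.Unr.Level
import Fermat.Agent.S55.Loc.Unr.LevelJoin
import Fermat.Agent.S55.Coh.ResApi

set_option autoImplicit false

namespace Fermat.Agent.S55.Loc

open Fermat.Agent.S55 Fermat.Agent.S55.Loc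

variable {Γ : Type} [Group Γ]
variable {𝓝 : LevelSys Γ} {K : Type} [AddCommGroup K] [DistribMulAction Γ K]

theorem exists_descend [Smooth 𝓝 K] (U : GSub Γ K) (I : Subgroup Γ) (hI : I.Normal)
    (Y : Type) [MulAction Γ Y] [Finite Y] [SmoothSet 𝓝 Y]
    (z : Zsm 𝓝 (IndMod Y K) 2) (N : Subgroup Γ) (hIN : I ≤ N) (hz : IsLevelAt N z.1)
    (hY : ∀ τ ∈ I, ∀ y : Y, τ • y = y) (hU : ∀ g y, z.1 g y ∈ U.toAddSubgroup) :
    ∃ x : Hsm (lvlSup 𝓝 I hI) (IndMod Y (fixSub U I hI).Mod) 2,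
      Hsm.mk 𝓝 (IndMod Y K) 2 z =
        Hsm.refine (IndMod Y K) lvlSup_le 2
          (Hsm.map (IndMod.mapCoeff Y (fixSub U I hI).inclG) 2 x) := by
  obtain ⟨N0, hN0, hz0⟩ := z.2.1
  have hM : IsLevelAt (I ⊔ N0) z.1 := IsLevelAt.sup (hz.mono hIN) hz0
  have hN0n : N0.Normal := 𝓝.normal N0 hN0
  have : (I ⊔ N0).Normal := Subgroup.sup_normal I N0
  have hd : dd (IndMod Y K) 2 z.1 = 0 := z.2.2
  have hfix : ∀ g, ∀ τ ∈ I, ∀ y, τ • z.1 g y = z.1 g y := by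
    intro g τ hτ y
    have h := smul_eq_of_isLevelAt_two hM hd g τ (Subgroup.mem_sup_left hτ)
    have h2 := DFunLike.congr_fun h y
    rw [IndMod.smul_apply, hY τ⁻¹ (I.inv_mem hτ) y] at h2
    exact h2
  let z' : (Fin 2 → Γ) → IndMod Y (fixSub U I hI).Mod := fun g =>
    IndMod.of fun y => (fixSub U I hI).mkMod (z.1 g y) ⟨hU g y, fun τ hτ => hfix g τ hτ y⟩
  have hinj : Function.Injective (IndMod.mapCoeff Y (fixSub U I hI).inclG) := by
    intro f f' h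
    ext y
    exact (fixSub U I hI).inclG_injective (DFunLike.congr_fun h y)
  have hcm : cmap ((IndMod.mapCoeff Y (fixSub U I hI).inclG :
      IndMod Y (fixSub U I hI).Mod →+[Γ] IndMod Y K) :
      IndMod Y (fixSub U I hI).Mod →+ IndMod Y K) 2 z' = z.1 := by
    funext g
    ext y
    rfl
  have hz'lev : IsLevelAt (I ⊔ N0) z' := by
    refine IsLevelAt.of_comp_injective hinj ?_
    intro g k hgk
    have := hM g k hgk
    have e1 := congrFun hcm g
    have e2 := congrFun hcm k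
    rw [cmap_apply] at e1 e2
    exact e1.trans (this.trans e2.symm)
  have hz'd : dd (IndMod Y (fixSub U I hI).Mod) 2 z' = 0 := by
    apply cmap_injective (G := Γ) (φ := ((IndMod.mapCoeff Y (fixSub U I hI).inclG :
      IndMod Y (fixSub U I hI).Mod →+[Γ] IndMod Y K) :
      IndMod Y (fixSub U I hI).Mod →+ IndMod Y K)) hinj 3
    rw [← dd_cmap, hcm, hd, map_zero]
  have hz'mem : z' ∈ Zsm (lvlSup 𝓝 I hI) (IndMod Y (fixSub U I hI).Mod) 2 :=
    ⟨⟨I ⊔ N0, ⟨N0, hN0, rfl⟩, hz'lev⟩, hz'd⟩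
  refine ⟨Hsm.mk _ _ 2 ⟨z', hz'mem⟩, ?_⟩
  rw [Hsm.map_mk]
  obtain ⟨hzz, hr⟩ := Hsm.refine_mk (A := IndMod Y K) (lvlSup_le (𝓝 := 𝓝) (I := I) (hI := hI)) 2
    (Zsm.map (IndMod.mapCoeff Y (fixSub U I hI).inclG) 2 ⟨z', hz'mem⟩)
  rw [hr]
  exact congrArg _ (Subtype.ext hcm.symm)

end Fermat.Agent.S55.Loc
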