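/-
S55 / LOC / LUN-5 (architect helper56, proof helper199): unramified classes die on `Y × ZSet (d n)`.
-/
import Fermat.Agent.S55.Loc.Unr.Level
import Fermat.Agent.S55.Coh.All
import Fermat.Agent.S55.Coh.SetDefs2

set_option autoImplicit false

namespace Fermat.Agent.S55.Loc

open Fermat.Agent.S55 Fermat.Agent.S55.Loc

variable {Γ : Type} [Group Γ]

/-- private copy of LUN-0 `exists_ZSet_to_coset` (so that this file does not wait for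
`Loc/Abs/ZSet.lean`). -/
private theorem exists_ZSet_to_coset_aux {n : ℕ} (d : Γ →* Multiplicative (ZMod n)) (φ : Γ)
    (hφ : d φ = Multiplicative.ofAdd 1) (M : Subgroup Γ) (hM : d.ker ≤ M) :
    Nonempty (ZSet d →[Γ] Γ ⧸ M) := by
  have hsurj : ∀ z : ZSet d, ∃ g : Γ, d g = Multiplicative.ofAdd ((ZSet.of d).symm z) := by
    intro z
    obtain ⟨k, hk⟩ := ZMod.intCast_surjective ((ZSet.of d).symm z)
    refine ⟨φ ^ k, ?_⟩
    rw [map_zpow, hφ, ← ofAdd_zsmul, zsmul_one, hk]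
  choose s hs using hsurj
  refine ⟨⟨fun z => (s z : Γ ⧸ M), fun g z => ?_⟩⟩
  show ((s (g • z) : Γ) : Γ ⧸ M) = g • ((s z : Γ) : Γ ⧸ M)
  rw [MulAction.Quotient.smul_coe, smul_eq_mul, QuotientGroup.eq]
  apply hM
  rw [MonoidHom.mem_ker, map_mul, map_inv, map_mul, hs, hs, ZSet.smul_def,
    Equiv.symm_apply_apply, ofAdd_add, ofAdd_toAdd]
  exact inv_mul_cancel _

variable {𝓝 : LevelSys Γ} {K : Type} [AddCommGroup K] [DistribMulAction Γ K]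

theorem UnrAx.exists_ker_le (ax : UnrAx 𝓝 K) (M : Subgroup Γ) (hM : M ∈ ax.lvl.carrier) :
    ∃ n : ℕ, 0 < n ∧ (ax.d n).ker ≤ M := by
  obtain ⟨N0, hN0, rfl⟩ := mem_lvlSup.mp hM
  have hnorm : (ax.I ⊔ N0).Normal := ax.lvl.normal _ hM
  have hfin : (ax.I ⊔ N0).FiniteIndex := ax.lvl.finiteIndex _ hM
  set M := ax.I ⊔ N0 with hMdef
  have hn : 0 < M.index := Nat.pos_of_ne_zero hfin.index_ne_zero
  refine ⟨M.index, hn, fun g hg => ?_⟩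
  obtain ⟨N', hN', hN'le⟩ := ax.d_open M.index hn
  obtain ⟨N1, hN1, hN1le⟩ := 𝓝.directed N0 hN0 N' hN'
  obtain ⟨i, τ, hτ, ν, hν, rfl⟩ := ax.dense N1 hN1 g
  have hνM : ν ∈ M := (le_sup_right : N0 ≤ M) (hN1le hν).1
  have hτM : τ ∈ M := (le_sup_left : ax.I ≤ M) hτ
  have hνd : ax.d M.index ν = 1 := hN'le (hN1le hν).2
  have hg' : ax.d M.index (ax.φ ^ i * τ * ν) = 1 := hg
  rw [map_mul, map_mul, hνd, ax.d_I _ τ hτ, mul_one, mul_one, map_zpow, ax.d_φ _ hn, ← ofAdd_zsmul,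
    ofAdd_eq_one, zsmul_one, ZMod.intCast_zmod_eq_zero_iff_dvd] at hg'
  obtain ⟨k, rfl⟩ := hg'
  have hφ : ax.φ ^ ((M.index : ℤ) * k) ∈ M := by
    rw [zpow_mul, zpow_natCast]
    exact M.zpow_mem (Subgroup.pow_index_mem M ax.φ) k
  exact M.mul_mem (M.mul_mem hφ hτM) hνM

/-- general form (any level system `𝓜`, any smooth module `A`) -/
theorem efface_zProj {𝓜 : LevelSys Γ} {A : Type} [AddCommGroup A] [DistribMulAction Γ A]
    [Smooth 𝓜 A] (d : ∀ n : ℕ, Γ →* Multiplicative (ZMod n))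
    (hd : ∀ M ∈ 𝓜.carrier, ∃ n : ℕ, 0 < n ∧ Nonempty (ZSet (d n) →[Γ] Γ ⧸ M))
    (Y : Type) [MulAction Γ Y] [Finite Y] [SmoothSet 𝓜 Y] (k : ℕ)
    (x : Hsm 𝓜 (IndMod Y A) (k + 1)) :
    ∃ n : ℕ, 0 < n ∧ Hsm.map (IndMod.pull A (zProj Y (d n))) (k + 1) x = 0 := by
  obtain ⟨N, hN, hx⟩ := Hsm.efface_ind (𝓝 := 𝓜) Y k x
  obtain ⟨n, hn, ⟨ψ⟩⟩ := hd N hN
  refine ⟨n, hn, ?_⟩
  rw [Hsm.map_comp' (ψ := (IndMod.uncurry Y (ZSet (d n)) A).comp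
      (IndMod.mapCoeff Y (IndMod.pull A ψ)))
    (φ := IndMod.mapCoeff Y (IndMod.const (Γ ⧸ N) A)) (fun a => rfl), hx, _root_.map_zero]

theorem UnrAx.efface [Smooth 𝓝 K] (ax : UnrAx 𝓝 K) (Y : Type) [MulAction Γ Y] [Finite Y]
    [SmoothSet ax.lvl Y] (x : Hsm ax.lvl (IndMod Y ax.V.Mod) 2) :
    ∃ n : ℕ, 0 < n ∧ Hsm.map (IndMod.pull ax.V.Mod (zProj Y (ax.d n))) 2 x = 0 := by
  have : Smooth ax.lvl ax.V.Mod := smooth_fixSub ax.U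
  refine efface_zProj (𝓜 := ax.lvl) ax.d (fun M hM => ?_) Y 1 x
  obtain ⟨n, hn, hle⟩ := ax.exists_ker_le M hM
  exact ⟨n, hn, exists_ZSet_to_coset_aux (ax.d n) ax.φ (ax.d_φ n hn) M hle⟩

end Fermat.Agent.S55.Loc
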