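/-
S55 / LOC / LUN-4 : `H^1_ur` of the unramified units vanishes.
A smooth 1-cocycle `c` of unramified level with values in the unramified units becomes a coboundary
`g ↦ g • b₀ - b₀` in `K_Y` (Hilbert 90); `b₀` is inertia invariant, so `b₀ y = k y • π + u y` with
`u y` an unramified unit; `k` is `Γ`-invariant because the values of `c` are units, hence
`c g = g • u - u`.
-/
import Fermat.Agent.S55.Loc.Unr.Defs
import Fermat.Agent.S55.Coh.All
import Fermat.Agent.S55.Coh.SetDefs2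

set_option autoImplicit false

namespace Fermat.Agent.S55.Loc

open Fermat.Agent.S55 Fermat.Agent.S55.Loc

variable {Γ : Type} [Group Γ]

namespace H1Units

/-- `lvlSup 𝓝 I` is coarser than `𝓝`. -/
theorem lvlSup_le_aux {𝓝 : LevelSys Γ} {I : Subgroup Γ} {hI : I.Normal} :
    (lvlSup 𝓝 I hI).Le 𝓝 := by
  rintro _ ⟨N, hN, rfl⟩
  exact ⟨N, hN, le_sup_right⟩

/-- a set which is smooth for the unramified levels is smooth -/
theorem smoothSet_aux {𝓝 : LevelSys Γ} {I : Subgroup Γ} {hI : I.Normal} (Y : Type)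
    [MulAction Γ Y] [SmoothSet (lvlSup 𝓝 I hI) Y] : SmoothSet 𝓝 Y where
  exists_fix y := by
    obtain ⟨_, ⟨N, hN, rfl⟩, h⟩ := SmoothSet.exists_fix (𝓝 := lvlSup 𝓝 I hI) y
    exact ⟨N, hN, fun n hn => h n ((le_sup_right : N ≤ I ⊔ N) hn)⟩

/-- inertia acts trivially on a set which is smooth for the unramified levels -/
theorem smul_eq_aux {𝓝 : LevelSys Γ} {I : Subgroup Γ} {hI : I.Normal} (Y : Type)
    [MulAction Γ Y] [SmoothSet (lvlSup 𝓝 I hI) Y] (τ : Γ) (hτ : τ ∈ I) (y : Y) : τ • y = y := by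
  obtain ⟨_, ⟨N, hN, rfl⟩, h⟩ := SmoothSet.exists_fix (𝓝 := lvlSup 𝓝 I hI) y
  exact h τ ((le_sup_left : I ≤ I ⊔ N) hτ)

/-- a 1-cocycle vanishes at `1` -/
theorem cocycle_one_aux {A : Type} [AddCommGroup A] [DistribMulAction Γ A]
    {c : (Fin 1 → Γ) → A} (hd : dd A 1 c = 0) : c (fun _ => 1) = 0 := by
  have h := congrFun hd (fun _ => 1)
  rw [dd_apply, Fin.sum_univ_two] at h
  have e1 : (fun i : Fin 1 => (fun _ : Fin 2 => (1 : Γ)) i.succ) = fun _ => 1 := rfl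
  have e2 : Fin.contractNth (0 : Fin 2) (· * ·) (fun _ : Fin 2 => (1 : Γ)) = fun _ => 1 := by
    funext i
    fin_cases i
    simp [Fin.contractNth]
  have e3 : Fin.contractNth (1 : Fin 2) (· * ·) (fun _ : Fin 2 => (1 : Γ)) = fun _ => 1 := by
    funext i
    fin_cases i
    simp [Fin.contractNth]
  rw [e1, e2, e3] at h
  simpa using h

/-- a 1-cocycle of level `M` vanishes on `M` -/
theorem eq_zero_aux {A : Type} [AddCommGroup A] [DistribMulAction Γ A]
    {M : Subgroup Γ} {c : (Fin 1 → Γ) → A} (hc : IsLevelAt M c) (hd : dd A 1 c = 0)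
    (g : Fin 1 → Γ) (hg : g 0 ∈ M) : c g = 0 := by
  rw [← cocycle_one_aux hd]
  refine (hc _ _ fun i => ?_).symm
  have : i = 0 := Subsingleton.elim _ _
  subst this
  simpa using hg

end H1Units

variable {𝓝 : LevelSys Γ} {K : Type} [AddCommGroup K] [DistribMulAction Γ K]

open H1Units in
theorem h1_units_eq_zero [Smooth 𝓝 K] (ax : UnrAx 𝓝 K) (Y : Type) [MulAction Γ Y] [Finite Y]
    [SmoothSet ax.lvl Y] (x : Hsm ax.lvl (IndMod Y ax.V.Mod) 1) : x = 0 := by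
  classical
  induction x using Hsm.induction_on with
  | h z =>
  have : SmoothSet 𝓝 Y := smoothSet_aux (𝓝 := 𝓝) (I := ax.I) (hI := ax.I_normal) Y
  have hYI : ∀ τ ∈ ax.I, ∀ y : Y, τ • y = y := fun τ hτ y =>
    smul_eq_aux (𝓝 := 𝓝) (I := ax.I) (hI := ax.I_normal) Y τ hτ y
  obtain ⟨⟨M, hM, hlev⟩, hdd⟩ := (mem_Zsm ax.lvl (IndMod Y ax.V.Mod)).1 z.2
  obtain ⟨N0, hN0, rfl⟩ := mem_lvlSup.1 hM
  -- the image cocycle
  set φ : IndMod Y ax.V.Mod →+[Γ] IndMod Y K := IndMod.mapCoeff Y ax.V.inclG with hφ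
  have hz' : cmap (φ : IndMod Y ax.V.Mod →+ IndMod Y K) 1 z.1 ∈ Zsm 𝓝 (IndMod Y K) 1 := by
    refine ⟨?_, ?_⟩
    · exact cmap_mem_Csm _ (IsLevel.of_le lvlSup_le_aux z.2.1)
    · change dd (IndMod Y K) 1 _ = 0
      rw [dd_cmap, hdd, map_zero]
  have h90 := ax.H90 Y (Hsm.mk 𝓝 (IndMod Y K) 1 ⟨_, hz'⟩)
  rw [Hsm.mk_eq_zero_iff, mem_Bsm_succ] at h90
  obtain ⟨e, -, he⟩ := h90
  set b0 : IndMod Y K := e default with hb0
  have hc : ∀ g : Fin 1 → Γ, φ (z.1 g) = g 0 • b0 - b0 := by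
    intro g
    have := congrFun he g
    rw [dd_zero_apply] at this
    exact this.symm
  -- `b0` is fixed by inertia
  have hfix : ∀ τ ∈ ax.I, τ • b0 = b0 := by
    intro τ hτ
    have h1 : z.1 (fun _ => τ) = 0 :=
      eq_zero_aux (M := ax.I ⊔ N0) hlev hdd _ ((le_sup_left : ax.I ≤ ax.I ⊔ N0) hτ)
    have h2 := hc (fun _ => τ)
    rw [h1, map_zero] at h2
    exact (sub_eq_zero.1 h2.symm)
  have hfixy : ∀ y : Y, ∀ τ ∈ ax.I, τ • b0 y = b0 y := by
    intro y τ hτ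
    have h1 := congrArg (fun f : IndMod Y K => f y) (hfix τ hτ)
    simp only [IndMod.smul_apply] at h1
    rwa [hYI τ⁻¹ (ax.I.inv_mem hτ) y] at h1
  choose k hk using fun y : Y => ax.decomp (b0 y) (hfixy y)
  have hV : ∀ y : Y, b0 y - k y • ax.π ∈ ax.V.toAddSubgroup := by
    intro y
    refine mem_fixSub.2 ⟨hk y, fun τ hτ => ?_⟩
    rw [smul_sub, hfixy y τ hτ, smul_comm, ax.π_fix]
  -- `k` is invariant
  have hkinv : ∀ (g : Γ) (y : Y), k (g⁻¹ • y) = k y := by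
    intro g y
    have h1 := congrArg (fun f : IndMod Y K => f y) (hc (fun _ => g))
    simp only [IndMod.smul_apply, IndMod.sub_apply, hφ, IndMod.mapCoeff_apply,
      GSub.inclG_apply] at h1
    have h2 : ax.V.incl (z.1 (fun _ => g) y) ∈ ax.U.toAddSubgroup :=
      (mem_fixSub.1 (ax.V.incl_mem _)).1
    have h3 : g • (b0 (g⁻¹ • y) - k (g⁻¹ • y) • ax.π) ∈ ax.U.toAddSubgroup :=
      ax.U.smul_mem' g (hk _)
    have h4 : (k (g⁻¹ • y) - k y) • ax.π ∈ ax.U.toAddSubgroup := by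
      have h5 : (k (g⁻¹ • y) - k y) • ax.π =
          ax.V.incl (z.1 (fun _ => g) y) - g • (b0 (g⁻¹ • y) - k (g⁻¹ • y) • ax.π)
            + (b0 y - k y • ax.π) := by
        rw [h1, smul_sub, smul_comm g, ax.π_fix, sub_smul]
        abel
      rw [h5]
      exact ax.U.toAddSubgroup.add_mem (ax.U.toAddSubgroup.sub_mem h2 h3) (hk y)
    exact sub_eq_zero.1 (ax.π_free _ h4)
  -- the unit primitive
  set b1 : IndMod Y ax.V.Mod := IndMod.of fun y => ax.V.mkMod (b0 y - k y • ax.π) (hV y) with hb1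
  rw [Hsm.mk_eq_zero_iff, mem_Bsm_succ]
  refine ⟨fun _ => b1, mem_Csm_zero _, ?_⟩
  funext g
  rw [dd_zero_apply]
  ext y
  apply ax.V.incl_injective
  have h1 := congrArg (fun f : IndMod Y K => f y) (hc g)
  simp only [IndMod.smul_apply, IndMod.sub_apply, hφ, IndMod.mapCoeff_apply,
    GSub.inclG_apply] at h1
  rw [h1]
  simp only [IndMod.smul_apply, IndMod.sub_apply, map_sub, GSub.incl_smul, hb1, IndMod.of_apply,
    GSub.incl_mkMod]
  rw [hkinv, smul_sub, smul_comm (g 0), ax.π_fix]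
  abel

end Fermat.Agent.S55.Loc
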