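/-
S55 / LOC / LUN-6 (proof helper106): unramified unit classes die in `H^2(K_Y)`, `Y` transitive.
-/
import Fermat.Agent.S55.Loc.Abs.ZSet
import Fermat.Agent.S55.Loc.Unr.Level
import Fermat.Agent.S55.Loc.Unr.H1Units
import Fermat.Agent.S55.Loc.Unr.EffaceZ

set_option autoImplicit false

namespace Fermat.Agent.S55.Loc

open Fermat.Agent.S55 Fermat.Agent.S55.Loc

variable {Γ : Type} [Group Γ]
variable {𝓝 : LevelSys Γ} {K : Type} [AddCommGroup K] [DistribMulAction Γ K]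

theorem UnrAx.refine_map_eq_zero [Smooth 𝓝 K] (ax : UnrAx 𝓝 K) (Y : Type) [MulAction Γ Y]
    [Finite Y] [SmoothSet ax.lvl Y] [MulAction.IsPretransitive Γ Y]
    (x : Hsm ax.lvl (IndMod Y ax.V.Mod) 2) :
    Hsm.refine (IndMod Y K) lvlSup_le 2 (Hsm.map (IndMod.mapCoeff Y ax.V.inclG) 2 x) = 0 := by
  obtain ⟨n, hn0, hn⟩ := UnrAx.efface ax Y x
  have : NeZero n := ⟨hn0.ne'⟩
  have hZ : SmoothSet ax.lvl (ZSet (ax.d n)) :=
    smoothSet_ZSet (ax.d n) ((isOpen_lvlSup_iff _).2 ⟨ax.d_open n hn0, fun τ hτ => ax.d_I n τ hτ⟩)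
  have hV : Smooth ax.lvl ax.V.Mod := smooth_fixSub ax.U
  have hY𝓝 : SmoothSet 𝓝 Y := smoothSet_of_lvlSup (I := ax.I) (hI := ax.I_normal) Y
  have hY'𝓝 : SmoothSet 𝓝 (Y × ZSet (ax.d n)) :=
    smoothSet_of_lvlSup (I := ax.I) (hI := ax.I_normal) _
  have h := zCover Y (ax.d n)
  obtain ⟨a, ha⟩ := (CyclicCover.exists_theta_eq_iff ax.lvl ax.V.Mod h 0
    (fun y => h1_units_eq_zero ax _ y) x).2 hn
  rw [Hsm.refine_map, ← ha, CyclicCover.theta_eq_fourTerm, ← FourTerm.refine_theta lvlSup_le,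
    ← CyclicCover.theta_eq_fourTerm 𝓝 ax.V.Mod h, ← CyclicCover.theta_mapCoeff]
  obtain ⟨b, hb⟩ := ax.unitNorm Y (smul_eq_of_smoothSet_lvlSup (𝓝 := 𝓝) (I := ax.I) (hI := ax.I_normal) Y) n
    (Hsm.map (IndMod.mapCoeff Y ax.V.inclG) 0 (Hsm.refine _ lvlSup_le 0 a)) (by
      intro y
      rw [Hsm.H0equiv_map, inv0.coe_map, IndMod.mapCoeff_apply]
      exact (mem_fixSub.1 (ax.V.incl_mem _)).1)
  rw [← hb, CyclicCover.theta_push]

end Fermat.Agent.S55.Loc
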