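/-
S55 / LOC / LUN-7 (proof helper146): the abstract theorem L7.
-/
import Fermat.Agent.S55.Loc.Unr.Level
import Fermat.Agent.S55.Loc.Unr.Descend
import Fermat.Agent.S55.Loc.Unr.MainTrans

set_option autoImplicit false

namespace Fermat.Agent.S55.Loc

open Fermat.Agent.S55 Fermat.Agent.S55.Loc

variable {Γ : Type} [Group Γ]
variable {𝓝 : LevelSys Γ} {K : Type} [AddCommGroup K] [DistribMulAction Γ K]

theorem UnrAx.mk_eq_zero_of_transitive [Smooth 𝓝 K] (ax : UnrAx 𝓝 K) (Y : Type) [MulAction Γ Y]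
    [Finite Y] [SmoothSet 𝓝 Y] [MulAction.IsPretransitive Γ Y]
    (z : Zsm 𝓝 (IndMod Y K) 2) (N : Subgroup Γ) (hIN : ax.I ≤ N) (hz : IsLevelAt N z.1)
    (hY : ∀ τ ∈ ax.I, ∀ y : Y, τ • y = y) (hU : ∀ g y, z.1 g y ∈ ax.U.toAddSubgroup) :
    Hsm.mk 𝓝 (IndMod Y K) 2 z = 0 := by
  obtain ⟨x, hx⟩ := exists_descend ax.U ax.I ax.I_normal Y z N hIN hz hY hU
  have : SmoothSet ax.lvl Y := smoothSet_lvlSup Y hY
  rw [hx]
  exact UnrAx.refine_map_eq_zero ax Y x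

/-- an orbit is a transitive `Γ`-set -/
theorem main_isPretransitive_orbit {Y : Type} [MulAction Γ Y]
    (ω : MulAction.orbitRel.Quotient Γ Y) : MulAction.IsPretransitive Γ ω.orbit := by
  refine ⟨fun x y => ?_⟩
  have hx := MulAction.orbitRel.Quotient.mem_orbit.1 x.2
  have hy := MulAction.orbitRel.Quotient.mem_orbit.1 y.2
  have h : (Quotient.mk'' (y : Y) : MulAction.orbitRel.Quotient Γ Y) = Quotient.mk'' (x : Y) :=
    hy.trans hx.symm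
  obtain ⟨g, hg⟩ : (y : Y) ∈ MulAction.orbit Γ (x : Y) := Quotient.exact h
  exact ⟨g, Subtype.ext hg⟩

/-- an orbit of a smooth `Γ`-set is smooth -/
theorem main_smoothSet_orbit {Y : Type} [MulAction Γ Y] [SmoothSet 𝓝 Y]
    (ω : MulAction.orbitRel.Quotient Γ Y) : SmoothSet 𝓝 ω.orbit := by
  refine ⟨fun x => ?_⟩
  obtain ⟨N, hN, h⟩ := SmoothSet.exists_fix (𝓝 := 𝓝) (x : Y)
  exact ⟨N, hN, fun n hn => Subtype.ext (h n hn)⟩

/-- **Abstract L7.** -/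
theorem UnrAx.mk_eq_zero [Smooth 𝓝 K] (ax : UnrAx 𝓝 K) (Y : Type) [MulAction Γ Y]
    [Finite Y] [SmoothSet 𝓝 Y]
    (z : Zsm 𝓝 (IndMod Y K) 2) (N : Subgroup Γ) (hIN : ax.I ≤ N) (hz : IsLevelAt N z.1)
    (hY : ∀ τ ∈ ax.I, ∀ y : Y, τ • y = y) (hU : ∀ g y, z.1 g y ∈ ax.U.toAddSubgroup) :
    Hsm.mk 𝓝 (IndMod Y K) 2 z = 0 := by
  have : Finite (MulAction.orbitRel.Quotient Γ Y) := Quotient.finite _
  refine IsPartition.hsm_ext (isPartition_orbits Y) 2 _ fun ω => ?_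
  rw [Hsm.map_mk]
  have : SmoothSet 𝓝 ω.orbit := main_smoothSet_orbit ω
  have : MulAction.IsPretransitive Γ ω.orbit := main_isPretransitive_orbit ω
  exact UnrAx.mk_eq_zero_of_transitive ax ω.orbit _ N hIN
    (hz.comp fun f => IndMod.pull K (orbitIncl ω) f)
    (fun τ hτ y => Subtype.ext (hY τ hτ y)) (fun g y => hU g y)

end Fermat.Agent.S55.Loc
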