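/-
S55 / LOC / LUN, node LUN-11 (owner helper80): the characters `Γ → ℤ/n` attached to `I.chi (1/n)`.
-/
import Fermat.Agent.S55.Loc.PkgDefs
import Fermat.Agent.S55.Loc.Coh.QZ

set_option autoImplicit false

namespace Fermat.Agent.S55.Loc

open Fermat.Agent.S55 Fermat.Agent.S55.Loc

variable {Γ : Type} [Group Γ] {𝓝 : LevelSys Γ} {K : Type} [AddCommGroup K] [DistribMulAction Γ K]

theorem DChar.chi_zero (I : LocalInput 𝓝 K) (γ : Γ) : I.chi 0 γ = 0 := by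
  have h := I.chi_add 0 0 γ
  rw [add_zero] at h
  exact add_eq_left.1 h.symm

theorem DChar.chi_nsmul (I : LocalInput 𝓝 K) (n : ℕ) (r : QZ) (γ : Γ) :
    I.chi (n • r) γ = n • I.chi r γ := by
  induction n with
  | zero => rw [zero_smul, zero_smul, DChar.chi_zero]
  | succ n ih => rw [succ_nsmul, succ_nsmul, I.chi_add, ih]

theorem DChar.chi_one (I : LocalInput 𝓝 K) (r : QZ) : I.chi r 1 = 0 := by
  have h := I.chi_mul r 1 1
  rw [mul_one] at h
  exact add_eq_left.1 h.symm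

theorem DChar.nsmul_toQZ_inv {n : ℕ} (hn : 0 < n) : n • toQZ (1 / (n : ℚ)) = 0 := by
  rw [← natCast_zsmul, QZ.zsmul_toQZ_inv_eq_zero_iff n hn]

theorem DChar.zsmul_eq_zsmul_iff {n : ℕ} (hn : 0 < n) (k k' : ℤ) :
    k • toQZ (1 / (n : ℚ)) = k' • toQZ (1 / (n : ℚ)) ↔ (k : ZMod n) = (k' : ZMod n) := by
  rw [← sub_eq_zero, ← sub_smul, QZ.zsmul_toQZ_inv_eq_zero_iff n hn, eq_comm,
    ZMod.intCast_eq_intCast_iff_dvd_sub]

/-- existence of the character `d` with `chi (1/n) γ = d(γ)/n` -/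
theorem exists_dChar (I : LocalInput 𝓝 K) (n : ℕ) :
    ∃ d : Γ →* Multiplicative (ZMod n), 0 < n → ∀ (γ : Γ) (k : ℤ),
      d γ = Multiplicative.ofAdd (k : ZMod n) ↔
        I.chi (toQZ (1 / (n : ℚ))) γ = k • toQZ (1 / (n : ℚ)) := by
  rcases Nat.eq_zero_or_pos n with rfl | hn
  · exact ⟨1, fun h => absurd h (lt_irrefl 0)⟩
  have h1 : ∀ γ : Γ, ∃ k : ℤ, I.chi (toQZ (1 / (n : ℚ))) γ = k • toQZ (1 / (n : ℚ)) := by
    intro γ
    apply QZ.exists_eq_zsmul_of_nsmul_eq_zero n hn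
    rw [← DChar.chi_nsmul, DChar.nsmul_toQZ_inv hn, DChar.chi_zero]
  choose κ hκ using h1
  refine ⟨MonoidHom.mk' (fun γ => Multiplicative.ofAdd ((κ γ : ℤ) : ZMod n)) ?_, ?_⟩
  · intro γ γ'
    rw [← ofAdd_add, ← Int.cast_add]
    congr 1
    rw [← DChar.zsmul_eq_zsmul_iff hn, add_smul, ← hκ, ← hκ, ← hκ, I.chi_mul]
  · intro _ γ k
    rw [MonoidHom.mk'_apply, hκ γ, DChar.zsmul_eq_zsmul_iff hn]
    exact Multiplicative.ofAdd.injective.eq_iff

/-- the unramified character of degree `n` (trivial for `n = 0`) -/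
noncomputable def dChar (I : LocalInput 𝓝 K) (n : ℕ) : Γ →* Multiplicative (ZMod n) :=
  if 0 < n then Classical.choose (exists_dChar I n) else 1

theorem dChar_eq_iff (I : LocalInput 𝓝 K) {n : ℕ} (hn : 0 < n) (γ : Γ) (k : ℤ) :
    dChar I n γ = Multiplicative.ofAdd (k : ZMod n) ↔
      I.chi (toQZ (1 / (n : ℚ))) γ = k • toQZ (1 / (n : ℚ)) := by
  rw [dChar, if_pos hn]
  exact Classical.choose_spec (exists_dChar I n) hn γ k

theorem mem_ker_dChar (I : LocalInput 𝓝 K) {n : ℕ} (hn : 0 < n) (γ : Γ) :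
    γ ∈ (dChar I n).ker ↔ I.chi (toQZ (1 / (n : ℚ))) γ = 0 := by
  have h := dChar_eq_iff I hn γ 0
  rw [Int.cast_zero, ofAdd_zero, zero_smul] at h
  rw [MonoidHom.mem_ker]
  exact h

theorem isOpen_ker_dChar (I : LocalInput 𝓝 K) {n : ℕ} (hn : 0 < n) :
    𝓝.IsOpen (dChar I n).ker := by
  obtain ⟨N, hN, h⟩ := I.chi_level (toQZ (1 / (n : ℚ)))
  exact ⟨N, hN, fun γ hγ => (mem_ker_dChar I hn γ).2 (h γ hγ)⟩

theorem dChar_of_mem_inertia (I : LocalInput 𝓝 K) (n : ℕ) (τ : Γ) (hτ : τ ∈ I.inertia) :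
    dChar I n τ = 1 := by
  rcases Nat.eq_zero_or_pos n with rfl | hn
  · rw [dChar, if_neg (lt_irrefl 0)]
    rfl
  · exact (mem_ker_dChar I hn τ).2 (hτ _)

theorem dChar_frob (I : LocalInput 𝓝 K) {n : ℕ} (hn : 0 < n) :
    dChar I n I.frob = Multiplicative.ofAdd 1 := by
  have h := dChar_eq_iff I hn I.frob 1
  rw [Int.cast_one, one_smul] at h
  exact h.2 (I.chi_frob _)

theorem inertia_normal (I : LocalInput 𝓝 K) : I.inertia.Normal := by
  refine ⟨fun τ hτ g r => ?_⟩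
  rw [I.chi_mul, I.chi_mul, hτ r, add_zero, ← I.chi_mul, mul_inv_cancel, DChar.chi_one]

end Fermat.Agent.S55.Loc
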