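/-
S55 / LOC / LUN, node LUN-12a (architect helper56, proof helper109): a norm from
`V = Stab(y) ∩ ker d` is in the image of `push (zProj Y d)` (pure `Γ`-set bookkeeping).
-/
import Fermat.Agent.S55.Loc.Coh.FixNorm
import Fermat.Agent.S55.Loc.Abs.Defs
import Fermat.Agent.S55.Coh.IndApi

set_option autoImplicit false

namespace Fermat.Agent.S55.Loc

open Fermat.Agent.S55 Fermat.Agent.S55.Loc

variable {Γ : Type} [Group Γ] {𝓝 : LevelSys Γ} {K : Type} [AddCommGroup K] [DistribMulAction Γ K]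

/-- an invariant function is equivariant -/
theorem PushZ.inv_apply_smul {Y : Type} [MulAction Γ Y] (a : inv0 Γ (IndMod Y K)) (g : Γ) (y : Y) :
    (a : IndMod Y K) (g • y) = g • (a : IndMod Y K) y := by
  have h1 := congrArg (fun f : IndMod Y K => f (g • y)) (mem_inv0.1 a.2 g)
  simp only [IndMod.smul_apply, inv_smul_smul] at h1
  exact h1.symm

/-- `push` along the orbit map of a transitive `Γ`-set -/
theorem PushZ.push_cosetToSet_ofFix {Y : Type} [MulAction Γ Y] [MulAction.IsPretransitive Γ Y]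
    (y : Y) [Finite (Γ ⧸ MulAction.stabilizer Γ y)] (a : inv0 Γ (IndMod Y K))
    (a0 : fixA K (MulAction.stabilizer Γ y)) (h : (a0 : K) = (a : IndMod Y K) y) :
    IndMod.push K (cosetToSet (MulAction.stabilizer Γ y) y fun _ hu => MulAction.mem_stabilizer_iff.1 hu)
      (ofFix (MulAction.stabilizer Γ y) a0 : IndMod (Γ ⧸ MulAction.stabilizer Γ y) K) = a := by
  ext x
  obtain ⟨g, rfl⟩ := MulAction.exists_smul_eq Γ y x
  rw [IndMod.push_apply]
  rw [finsum_eq_single _ (⟨(g : Γ ⧸ MulAction.stabilizer Γ y), rfl⟩ :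
    {c : Γ ⧸ MulAction.stabilizer Γ y // cosetToSet (MulAction.stabilizer Γ y) y
      (fun _ hu => MulAction.mem_stabilizer_iff.1 hu) c = g • y})]
  · rw [ofFix_apply_mk, h, PushZ.inv_apply_smul]
  · rintro ⟨c, hc⟩ hne
    exfalso
    apply hne
    apply Subtype.ext
    induction c using QuotientGroup.induction_on with
    | H g' =>
      rw [cosetToSet_mk] at hc
      show (g' : Γ ⧸ MulAction.stabilizer Γ y) = (g : Γ ⧸ MulAction.stabilizer Γ y)
      rw [QuotientGroup.eq, MulAction.mem_stabilizer_iff, mul_smul, ← hc, inv_smul_smul]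

/-- general transport: a norm from `V = Stab(y) ∩ ker d` is in the image of `push (zProj Y d)` -/
theorem mem_range_push_zProj (Y : Type) [MulAction Γ Y] [Finite Y] [SmoothSet 𝓝 Y]
    [MulAction.IsPretransitive Γ Y] {n : ℕ} [NeZero n] (d : Γ →* Multiplicative (ZMod n))
    (hd : 𝓝.IsOpen d.ker) (a : Hsm 𝓝 (IndMod Y K) 0) (y : Y) (b : K)
    (hb : b ∈ fixA K (MulAction.stabilizer Γ y ⊓ d.ker))
    (hba : nmA K (MulAction.stabilizer Γ y ⊓ d.ker) (MulAction.stabilizer Γ y) b =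
      (Hsm.H0equiv a : IndMod Y K) y) :
    a ∈ Set.range (Hsm.map (𝓝 := 𝓝) (IndMod.push K (zProj Y d)) 0) := by
  have hSopen : 𝓝.IsOpen (MulAction.stabilizer Γ y) := SmoothSet.isOpen_stabilizer 𝓝 y
  have hVopen : 𝓝.IsOpen (MulAction.stabilizer Γ y ⊓ d.ker) := hSopen.inf hd
  have hVfi : (MulAction.stabilizer Γ y ⊓ d.ker).FiniteIndex := hVopen.finiteIndex
  have hSfi : (MulAction.stabilizer Γ y).FiniteIndex := hSopen.finiteIndex
  have hVfin : Finite (Γ ⧸ (MulAction.stabilizer Γ y ⊓ d.ker)) :=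
    Subgroup.finite_quotient_of_finiteIndex
  have hSfin : Finite (Γ ⧸ MulAction.stabilizer Γ y) := Subgroup.finite_quotient_of_finiteIndex
  have hfix : ∀ u ∈ MulAction.stabilizer Γ y ⊓ d.ker,
      u • ((y, ZSet.of d 0) : Y × ZSet d) = (y, ZSet.of d 0) := by
    intro u hu
    refine Prod.ext hu.1 ?_
    show u • ZSet.of d 0 = ZSet.of d 0
    rw [ZSet.smul_def, MonoidHom.mem_ker.1 hu.2, toAdd_one, zero_add, Equiv.apply_symm_apply]
  have hcomp : (zProj Y d).comp (cosetToSet _ ((y, ZSet.of d 0) : Y × ZSet d) hfix) =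
      (cosetToSet (MulAction.stabilizer Γ y) y fun _ hu => MulAction.mem_stabilizer_iff.1 hu).comp
        (cosetMap (inf_le_left : MulAction.stabilizer Γ y ⊓ d.ker ≤ MulAction.stabilizer Γ y)) := by
    ext x
    induction x using QuotientGroup.induction_on with
    | H g => rfl
  have hnm : nmA K (MulAction.stabilizer Γ y ⊓ d.ker) (MulAction.stabilizer Γ y) b ∈
      fixA K (MulAction.stabilizer Γ y) := by
    intro u hu
    rw [hba, ← PushZ.inv_apply_smul, MulAction.mem_stabilizer_iff.1 hu]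
  refine ⟨Hsm.H0equiv.symm (inv0.map (IndMod.push K
    (cosetToSet _ ((y, ZSet.of d 0) : Y × ZSet d) hfix)) (ofFix _ ⟨b, hb⟩)), ?_⟩
  apply Hsm.H0equiv.injective
  rw [Hsm.H0equiv_map, AddEquiv.apply_symm_apply]
  apply Subtype.ext
  rw [inv0.coe_map, inv0.coe_map, ← IndMod.push_comp, hcomp, IndMod.push_comp]
  have h1 := congrArg Subtype.val (map_push_ofFix
    (inf_le_left : MulAction.stabilizer Γ y ⊓ d.ker ≤ MulAction.stabilizer Γ y) ⟨b, hb⟩ hnm)
  rw [inv0.coe_map] at h1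
  rw [h1]
  exact PushZ.push_cosetToSet_ofFix y (Hsm.H0equiv a) ⟨_, hnm⟩ hba

end Fermat.Agent.S55.Loc
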