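/-
S55 / LOC / LUN-12b: units are norms from `Y × ZSet (dChar n)`, from (AR3).
-/
import Fermat.Agent.S55.Loc.Unr.DChar
import Fermat.Agent.S55.Loc.Unr.PushZ
import Fermat.Agent.S55.Loc.Unr.Defs

set_option autoImplicit false

namespace Fermat.Agent.S55.Loc

open Fermat.Agent.S55

variable {Γ : Type} [Group Γ] {𝓝 : LevelSys Γ} {K : Type} [AddCommGroup K] [DistribMulAction Γ K]

theorem unitNorm_of_localInput (I : LocalInput 𝓝 K) (U : GSub Γ K)
    (hv : ∀ a : inv0 Γ K, (a : K) ∈ U.toAddSubgroup → I.v a = 0)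
    (Y : Type) [MulAction Γ Y] [Finite Y] [SmoothSet 𝓝 Y] [MulAction.IsPretransitive Γ Y]
    (n : ℕ) [NeZero n] (a : Hsm 𝓝 (IndMod Y K) 0)
    (ha : ∀ y, (Hsm.H0equiv a : IndMod Y K) y ∈ U.toAddSubgroup) :
    a ∈ Set.range (Hsm.map (𝓝 := 𝓝) (IndMod.push K (zProj Y (dChar I n))) 0) := by
  have hn : 0 < n := Nat.pos_of_ne_zero (NeZero.ne n)
  rcases isEmpty_or_nonempty Y with hY | ⟨⟨y⟩⟩
  · refine ⟨0, ?_⟩
    rw [map_zero]
    apply Hsm.H0equiv.injective
    apply Subtype.ext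
    ext y
    exact hY.elim y
  · have hS : 𝓝.IsOpen (MulAction.stabilizer Γ y) := SmoothSet.isOpen_stabilizer 𝓝 y
    have ha0 : (Hsm.H0equiv a : IndMod Y K) y ∈ fixA K (MulAction.stabilizer Γ y) := by
      intro s hs
      have h1 := PushZ.inv_apply_smul (Hsm.H0equiv a) s y
      rw [MulAction.mem_stabilizer_iff.1 hs] at h1
      exact h1.symm
    have hfin : (MulAction.stabilizer Γ y).index ≠ 0 := hS.finiteIndex.index_ne_zero
    have h1 := nmTop_mem hfin ha0
    rw [fixA_top_eq] at h1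
    have h2 : nmTop K (MulAction.stabilizer Γ y) ((Hsm.H0equiv a : IndMod Y K) y) ∈
        U.toAddSubgroup := by
      unfold nmTop
      exact finsum_induction (· ∈ U.toAddSubgroup) U.toAddSubgroup.zero_mem
        (fun _ _ hx hy => U.toAddSubgroup.add_mem hx hy) (fun c => U.smul_mem' _ (ha y))
    have h3 := hv ⟨_, h1⟩ h2
    obtain ⟨b, hb, hba⟩ := I.ar3 _ hS _ ha0 h3 (toQZ (1 / (n : ℚ)))
      (MulAction.stabilizer Γ y ⊓ (dChar I n).ker) (fun γ => by
        rw [Subgroup.mem_inf, mem_ker_dChar I hn])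
    exact mem_range_push_zProj Y (dChar I n) (isOpen_ker_dChar I hn) a y b hb hba

end Fermat.Agent.S55.Loc
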