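/-
S55 / LOC / LUN-13: `UnrAx` from helper173's `LocalInput`.
-/
import Fermat.Agent.S55.Loc.PkgDefs
import Fermat.Agent.S55.Loc.Unr.UnitNormLI

set_option autoImplicit false

namespace Fermat.Agent.S55.Loc

open Fermat.Agent.S55

variable {Γ : Type} [Group Γ] {𝓝 : LevelSys Γ} {K : Type} [AddCommGroup K] [DistribMulAction Γ K]

/-- `UnrAx` from `LocalInput` + density of the Frobenius + units. -/
noncomputable def UnrAx.ofLocalInput (I : LocalInput 𝓝 K) (dense : I.IsDense) (J : Subgroup Γ)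
    (hJ : I.inertia = J) (E : UnitAx K J)
    (H90 : ∀ (Y : Type) [MulAction Γ Y] [Finite Y] [SmoothSet 𝓝 Y]
      (y : Hsm 𝓝 (IndMod Y K) 1), y = 0)
    (hv : ∀ a : inv0 Γ K, (a : K) ∈ E.U.toAddSubgroup → I.v a = 0) : UnrAx 𝓝 K where
  I := J
  I_normal := hJ ▸ inertia_normal I
  d := dChar I
  d_open := fun _ hn => isOpen_ker_dChar I hn
  d_I := fun n τ hτ => dChar_of_mem_inertia I n τ (hJ ▸ hτ)
  φ := I.frob
  d_φ := fun _ hn => dChar_frob I hn
  dense := fun N hN g => by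
    obtain ⟨i, τ, hτ, ν, hν, h⟩ := dense N hN g
    exact ⟨i, τ, hJ ▸ hτ, ν, hν, by rw [zpow_natCast]; exact h⟩
  U := E.U
  π := E.π
  π_fix := E.π_fix
  π_free := E.π_free
  decomp := E.decomp
  H90 := H90
  unitNorm := fun Y _ _ _ _ _ n _ a ha => unitNorm_of_localInput I E.U hv Y n a ha

end Fermat.Agent.S55.Loc
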