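/-
S55 / LOC / LUN: the concrete units `unitsLoc q` and uniformiser `piLoc q` of `KL q`.
Definitions only.
-/
import Fermat.Agent.S55.Loc.Unr.Defs
import Fermat.Agent.S55.Arith.LocInterface

set_option autoImplicit false

namespace Fermat.Agent.S55.Loc

open scoped Pointwise

/-- The image of the local Galois group lies in the decomposition group of the chosen place. -/
theorem ιv_smul_plc (q : Nat.Primes) (g : Gv q) : ιv q g • plc q = plc q := by
  haveI : Fact (q : ℕ).Prime := ⟨q.2⟩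
  exact localGaloisToGlobal_mem_decompositionSubgroup (q : ℕ) g

/-- The units at the chosen place, as a stable subgroup of `KL q`. -/
noncomputable def unitsLoc (q : Nat.Primes) : GSub (Gv q) (KL q) where
  carrier := {x | Kx.IsUnitAt (plc q) ((ResMod.toRes (ιv q)).symm x)}
  zero_mem' := by
    show Kx.IsUnitAt (plc q) 0
    simp [Kx.IsUnitAt, Kx.val_zero, (plc q).one_mem]
  add_mem' := by
    intro a b ha hb
    have ha' : Kx.IsUnitAt (plc q) ((ResMod.toRes (ιv q)).symm a) := ha
    have hb' : Kx.IsUnitAt (plc q) ((ResMod.toRes (ιv q)).symm b) := hb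
    show Kx.IsUnitAt (plc q) ((ResMod.toRes (ιv q)).symm (a + b))
    rw [map_add]
    refine ⟨by rw [Kx.val_add]; exact (plc q).mul_mem _ _ ha'.1 hb'.1, ?_⟩
    rw [Kx.val_add, mul_inv]
    exact (plc q).mul_mem _ _ ha'.2 hb'.2
  neg_mem' := by
    intro a ha
    have ha' : Kx.IsUnitAt (plc q) ((ResMod.toRes (ιv q)).symm a) := ha
    show Kx.IsUnitAt (plc q) ((ResMod.toRes (ιv q)).symm (-a))
    rw [map_neg]
    exact ⟨by rw [Kx.val_neg]; exact ha'.2, by rw [Kx.val_neg, inv_inv]; exact ha'.1⟩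
  smul_mem' := by
    intro g a ha
    have ha' : Kx.IsUnitAt (plc q) ((ResMod.toRes (ιv q)).symm a) := ha
    show Kx.IsUnitAt (plc q) (ιv q g • (ResMod.toRes (ιv q)).symm a)
    rw [Kx.isUnitAt_smul_iff]
    have h : (ιv q g)⁻¹ • plc q = plc q := by
      rw [← map_inv]
      exact ιv_smul_plc q g⁻¹
    rw [h]
    exact ha'

theorem mem_unitsLoc {q : Nat.Primes} {x : KL q} :
    x ∈ (unitsLoc q).toAddSubgroup ↔ Kx.IsUnitAt (plc q) ((ResMod.toRes (ιv q)).symm x) := Iff.rfl

/-- The element `q` of `KL q`. -/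
noncomputable def piLoc (q : Nat.Primes) : KL q :=
  ResMod.toRes (ιv q) (Additive.ofMul (Units.mk0 ((q : ℕ) : Qb) (Nat.cast_ne_zero.2 q.2.ne_zero)))

theorem val_piLoc (q : Nat.Primes) :
    ((ResMod.toRes (ιv q)).symm (piLoc q) : Kx).val = ((q : ℕ) : Qb) := rfl

end Fermat.Agent.S55.Loc
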