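/-
S55 / LOC / LUN-13, first half (helper151): a unit has `ord = 0`; `I.v` kills the invariant units.
(`OfLocalInput.lean` imports this file and adds `UnrAx.ofLocalInput`.)
-/
import Fermat.Agent.S55.Loc.Interface
import Fermat.Agent.S55.Loc.Unr.LocDefs

set_option autoImplicit false
namespace Fermat.Agent.S55.Loc

open Fermat.Agent.S55 Fermat.Agent.S55.Loc

/-- a unit has `ord = 0` -/
theorem hasOrdAt_zero_of_isUnitAt (q : Nat.Primes) (x : Kx) (hx : Kx.IsUnitAt (plc q) x) :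
    HasOrdAt q x 0 := by
  unfold HasOrdAt
  rw [zpow_zero]
  have h1 : (plc q).valuation x.val ≤ 1 := (ValuationSubring.valuation_le_one_iff _ _).2 hx.1
  have h2 : (plc q).valuation (x.val)⁻¹ ≤ 1 := (ValuationSubring.valuation_le_one_iff _ _).2 hx.2
  rw [map_inv₀] at h2
  refine le_antisymm h1 ?_
  by_contra h
  have h3 : (plc q).valuation x.val < 1 := lt_of_not_ge h
  by_cases h0 : (plc q).valuation x.val = 0
  · have hx0 : x.val = 0 := (map_eq_zero _).1 h0
    exact (Units.ne_zero (Additive.toMul x : Qbˣ)) hx0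
  · have := (one_lt_inv₀ (zero_lt_iff.2 h0)).2 h3
    exact absurd h2 (not_le.2 this)

/-- `I.v` kills the invariant units, from the field `v_sum` of `LocalArith` (take `Y = PUnit`) -/
theorem v_eq_zero_of_v_sum (q : Nat.Primes) (I : LocalInput (lvlLoc q) (KL q))
    (v_sum : ∀ (Y : Type) [MulAction (Gv q) Y] [Finite Y] [SmoothSet (lvlLoc q) Y]
      [MulAction.IsPretransitive (Gv q) Y] (a : inv0 (Gv q) (IndMod Y (KL q))) (y : Y) (c : ℤ),
      HasOrdAt q ((ResMod.toRes (ιv q)).symm ((a : IndMod Y (KL q)) y)) c →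
      I.v (IndMod.sum (G := Gv q) Y (KL q) (a : IndMod Y (KL q))) = Nat.card Y * c)
    (a : inv0 (Gv q) (KL q)) (ha : (a : KL q) ∈ (unitsLoc q).toAddSubgroup) : I.v a = 0 := by
  have : SmoothSet (lvlLoc q) PUnit := ⟨fun x => by
    obtain ⟨N, hN⟩ := (lvlLoc q).nonempty
    exact ⟨N, hN, fun _ _ => rfl⟩⟩
  have : MulAction.IsPretransitive (Gv q) PUnit := ⟨fun _ _ => ⟨1, rfl⟩⟩
  let a' : inv0 (Gv q) (IndMod PUnit (KL q)) :=
    ⟨IndMod.const (G := Gv q) PUnit (KL q) (a : KL q), fun g => by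
      rw [← map_smul, a.2 g]⟩
  have h := v_sum PUnit a' PUnit.unit 0 (hasOrdAt_zero_of_isUnitAt q _ (mem_unitsLoc.1 ha))
  rw [mul_zero] at h
  have hs : IndMod.sum (G := Gv q) PUnit (KL q) (a' : IndMod PUnit (KL q)) = (a : KL q) := by
    rw [IndMod.sum_def, finsum_unique]
    rfl
  rwa [hs] at h

end Fermat.Agent.S55.Loc
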