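/-
S55 / LOC / LUN, node LUN-9 (helper258): the concrete units `unitsLoc q` and the uniformiser
`piLoc q` of `KL q` satisfy `UnitAx`.
-/
import Fermat.Agent.S55.Loc.Unr.LocDefs
import Fermat.Agent.S55.Units.EOne
import Fermat.Agent.S55.Bridge.LocalImage

set_option autoImplicit false

namespace Fermat.Agent.S55.Loc

open Fermat.Agent.S55 Fermat.Agent.S55.Loc
open scoped Pointwise

namespace UnitsLocAux

theorem val_injective' : Function.Injective Kx.val := fun _ _ h =>
  Additive.toMul.injective (Units.ext h)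

theorem val_ne_zero'' (x : Kx) : x.val ≠ 0 := (Additive.toMul x : Qbˣ).ne_zero

theorem val_zsmul (k : ℤ) (x : Kx) : (k • x).val = x.val ^ k := by
  show (((Additive.toMul x : Qbˣ) ^ k : Qbˣ) : Qb) = _
  rw [Units.val_zpow_eq_zpow_val]
  rfl

theorem val_sub' (x y : Kx) : (x - y).val = x.val * (y.val)⁻¹ := by
  rw [sub_eq_add_neg, Kx.val_add, Kx.val_neg]

theorem isUnitAt_iff (A : ValuationSubring Qb) (x : Kx) :
    Kx.IsUnitAt A x ↔ A.valuation x.val = 1 := by
  unfold Kx.IsUnitAt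
  rw [← A.valuation_le_one_iff, ← A.valuation_le_one_iff, map_inv₀]
  have h0 : A.valuation x.val ≠ 0 := (Valuation.ne_zero_iff _).mpr (val_ne_zero'' x)
  constructor
  · rintro ⟨h1, h2⟩
    exact le_antisymm h1 ((inv_le_one₀ (zero_lt_iff.mpr h0)).mp h2)
  · intro h
    rw [h, inv_one]
    exact ⟨le_rfl, le_rfl⟩

theorem plc_liesOver (q : Nat.Primes) : (plc q).LiesOverPrime (q : ℕ) := by
  have : Fact (q : ℕ).Prime := ⟨q.2⟩
  exact Bridge.padicPlace_liesOverPrime (q : ℕ)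

theorem val_q_lt_one (q : Nat.Primes) : (plc q).valuation (((q : ℕ) : Qb)) < 1 :=
  (ValuationSubring.mem_nonunits_iff (plc q)).mp (plc_liesOver q)

theorem val_q_ne_zero (q : Nat.Primes) : (plc q).valuation (((q : ℕ) : Qb)) ≠ 0 :=
  (Valuation.ne_zero_iff _).mpr (Nat.cast_ne_zero.2 q.2.ne_zero)

theorem inertiaSubgroupIn_le_decomposition (A : ValuationSubring Qb) :
    A.inertiaSubgroupIn ℚ ≤ A.decompositionSubgroup ℚ := by
  rintro _ ⟨i, -, rfl⟩
  exact i.2

/-- every element of the global inertia group at the chosen place comes from the local one. -/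
theorem exists_ιv_eq (q : Nat.Primes) {σ : GQ} (hσ : σ ∈ (plc q).inertiaSubgroupIn ℚ) :
    ∃ τ ∈ inertiaLoc q, ιv q τ = σ := by
  have : Fact (q : ℕ).Prime := ⟨q.2⟩
  have h1 : σ ∈ (padicPlace (q : ℕ)).decompositionSubgroup ℚ :=
    inertiaSubgroupIn_le_decomposition (plc q) hσ
  rw [← Bridge.range_localGaloisToGlobal (q : ℕ)] at h1
  obtain ⟨τ, hτ⟩ := h1
  refine ⟨τ, ?_, hτ⟩
  show ιv q τ ∈ (plc q).inertiaSubgroupIn ℚ
  have : ιv q τ = σ := hτ
  rw [this]
  exact hσ

end UnitsLocAux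

open UnitsLocAux

theorem inertiaLoc_normal (q : Nat.Primes) : (inertiaLoc q).Normal := by
  refine ⟨fun n hn g => ?_⟩
  obtain ⟨i, hi, hin⟩ : ιv q n ∈ (plc q).inertiaSubgroupIn ℚ := hn
  show ιv q (g * n * g⁻¹) ∈ (plc q).inertiaSubgroupIn ℚ
  let d : (plc q).decompositionSubgroup ℚ := ⟨ιv q g, ιv_smul_plc q g⟩
  have hnorm : ((plc q).inertiaSubgroup ℚ).Normal := by
    unfold ValuationSubring.inertiaSubgroup
    infer_instance
  refine ⟨d * i * d⁻¹, hnorm.conj_mem i hi d, ?_⟩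
  rw [map_mul, map_mul, map_inv, hin, map_mul, map_mul, map_inv]
  rfl

theorem smul_piLoc (q : Nat.Primes) (g : Gv q) : g • piLoc q = piLoc q := by
  apply (ResMod.toRes (ιv q)).symm.injective
  apply val_injective'
  show ιv q g (((q : ℕ) : Qb)) = ((q : ℕ) : Qb)
  exact map_natCast _ _

theorem zsmul_piLoc_mem_iff (q : Nat.Primes) (k : ℤ) :
    k • piLoc q ∈ (unitsLoc q).toAddSubgroup ↔ k = 0 := by
  rw [mem_unitsLoc, isUnitAt_iff, map_zsmul, val_zsmul, val_piLoc, map_zpow₀]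
  constructor
  · intro h
    have := zpow_right_injective₀ (zero_lt_iff.2 (val_q_ne_zero q)) (val_q_lt_one q).ne
      (h.trans (zpow_zero _).symm)
    exact this
  · rintro rfl
    exact zpow_zero _

/-- `e = 1` on the maximal unramified extension (from `Units/EOne.lean`). -/
theorem exists_sub_zsmul_piLoc_mem (q : Nat.Primes) (x : KL q)
    (hx : ∀ τ ∈ inertiaLoc q, τ • x = x) :
    ∃ k : ℤ, x - k • piLoc q ∈ (unitsLoc q).toAddSubgroup := by
  set y : Kx := (ResMod.toRes (ιv q)).symm x with hy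
  have hfix : ∀ σ ∈ (plc q).inertiaSubgroupIn ℚ, σ y.val = y.val := by
    intro σ hσ
    obtain ⟨τ, hτ, rfl⟩ := exists_ιv_eq q hσ
    have h1 := hx τ hτ
    have h2 : (ιv q τ • y).val = y.val := congrArg (fun z : KL q =>
      ((ResMod.toRes (ιv q)).symm z : Kx).val) h1
    exact h2
  obtain ⟨k, hk⟩ := Units.exists_hasOrd_of_inertia_fixed (q : ℕ) q.2 (plc q) (plc_liesOver q)
    y.val (val_ne_zero'' y) hfix
  refine ⟨k, ?_⟩
  rw [mem_unitsLoc, isUnitAt_iff, map_sub, map_zsmul, val_sub', val_zsmul, val_piLoc, map_mul,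
    map_inv₀, map_zpow₀]
  have hk' : (plc q).valuation y.val = (plc q).valuation (((q : ℕ) : Qb)) ^ k := hk
  rw [← hy, hk']
  exact mul_inv_cancel₀ (zpow_ne_zero _ (val_q_ne_zero q))

/-- The concrete `UnitAx`. -/
noncomputable def unitAxLoc (q : Nat.Primes) : UnitAx (KL q) (inertiaLoc q) where
  U := unitsLoc q
  π := piLoc q
  π_fix := smul_piLoc q
  π_free := fun k hk => (zsmul_piLoc_mem_iff q k).1 hk
  decomp := exists_sub_zsmul_piLoc_mem q

end Fermat.Agent.S55.Loc
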