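/-
S55 / LOC / LUN (architect helper56): export of the field `L7` of `LocalArith` / `LocPkg`
(unramified 2-cocycles with unit values are coboundaries).
-/
import Fermat.Agent.S55.Loc.Unr.Main
import Fermat.Agent.S55.Loc.Unr.UnitsLoc
import Fermat.Agent.S55.Loc.Unr.OrdUnit
import Fermat.Agent.S55.Loc.Unr.OfLocalInput

set_option autoImplicit false

namespace Fermat.Agent.S55.Loc

/-- `L7` from an `UnrAx` whose inertia group and units are the concrete ones. -/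
theorem L7_of_unrAx (q : Nat.Primes) (ax : UnrAx (lvlLoc q) (KL q)) (hI : ax.I = inertiaLoc q)
    (hU : ax.U = unitsLoc q)
    (Y : Type) [MulAction (Gv q) Y] [Finite Y] [SmoothSet (lvlLoc q) Y]
    (z : Zsm (lvlLoc q) (IndMod Y (KL q)) 2) (N : Subgroup (Gv q))
    (hN : inertiaLoc q ≤ N) (hz : IsLevelAt N z.1) (hY : ∀ τ ∈ inertiaLoc q, ∀ y : Y, τ • y = y)
    (hu : ∀ g y, Kx.IsUnitAt (plc q) ((ResMod.toRes (ιv q)).symm (z.1 g y))) :
    Hsm.mk (lvlLoc q) (IndMod Y (KL q)) 2 z = 0 :=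
  UnrAx.mk_eq_zero ax Y z N (hI ▸ hN) hz (by rw [hI]; exact hY)
    (fun g y => by rw [hU]; exact hu g y)

/-- **The field `L7` of `LocalArith` follows from the fields `I, dense, inertia_le, le_inertia,
v_sum, L1`.** -/
theorem L7_of_localInput (q : Nat.Primes) (I : LocalInput (lvlLoc q) (KL q)) (dense : I.IsDense)
    (inertia_le : I.inertia ≤ inertiaLoc q) (le_inertia : inertiaLoc q ≤ I.inertia)
    (v_sum : ∀ (Y : Type) [MulAction (Gv q) Y] [Finite Y] [SmoothSet (lvlLoc q) Y]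
      [MulAction.IsPretransitive (Gv q) Y] (a : inv0 (Gv q) (IndMod Y (KL q))) (y : Y) (c : ℤ),
      HasOrdAt q ((ResMod.toRes (ιv q)).symm ((a : IndMod Y (KL q)) y)) c →
      I.v (IndMod.sum (G := Gv q) Y (KL q) (a : IndMod Y (KL q))) = Nat.card Y * c)
    (L1 : ∀ (Y : Type) [MulAction (Gv q) Y] [Finite Y] [SmoothSet (lvlLoc q) Y]
      (y : HKY q Y 1), y = 0)
    (Y : Type) [MulAction (Gv q) Y] [Finite Y] [SmoothSet (lvlLoc q) Y]
    (z : Zsm (lvlLoc q) (IndMod Y (KL q)) 2) (N : Subgroup (Gv q))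
    (hN : inertiaLoc q ≤ N) (hz : IsLevelAt N z.1) (hY : ∀ τ ∈ inertiaLoc q, ∀ y : Y, τ • y = y)
    (hu : ∀ g y, Kx.IsUnitAt (plc q) ((ResMod.toRes (ιv q)).symm (z.1 g y))) :
    Hsm.mk (lvlLoc q) (IndMod Y (KL q)) 2 z = 0 :=
  L7_of_unrAx q (UnrAx.ofLocalInput I dense (inertiaLoc q) (le_antisymm inertia_le le_inertia)
    (unitAxLoc q) L1 (v_eq_zero_of_v_sum q I v_sum)) rfl rfl Y z N hN hz hY hu

end Fermat.Agent.S55.Loc
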