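/-
S55 / LOC / LUN (architect helper56), node LUN-8 (helper70): construction of `UnrAx` from `LocAx`.
-/
import Fermat.Agent.S55.Loc.Unr.Defs

set_option autoImplicit false

namespace Fermat.Agent.S55.Loc

open Fermat.Agent.S55 Fermat.Agent.S55.Loc

variable {Γ : Type} [Group Γ] {𝓝 : LevelSys Γ} {K : Type} [AddCommGroup K] [DistribMulAction Γ K]

/-! ### LUN-8 (file `OfLocAx.lean`) -/

/-- units are norms from `Y × ZSet (d n)`, from (AXU) -/
theorem unitNorm_of_locAx {p : ℕ} (ax : LocAx Γ 𝓝 K p) (U : GSub Γ K)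
    (hord : ∀ a : inv0 Γ K, (a : K) ∈ U.toAddSubgroup → ax.ord a = 0)
    (Y : Type) [MulAction Γ Y] [Finite Y] [SmoothSet 𝓝 Y] [MulAction.IsPretransitive Γ Y]
    (n : ℕ) [NeZero n] (a : Hsm 𝓝 (IndMod Y K) 0)
    (ha : ∀ y, (Hsm.H0equiv a : IndMod Y K) y ∈ U.toAddSubgroup) :
    a ∈ Set.range (Hsm.map (𝓝 := 𝓝) (IndMod.push K (zProj Y (ax.d n))) 0) := by
  rw [ax.AXU Y n a]
  have h : wY ax.ord Y a = 0 := by
    show ax.ord (Hsm.H0equiv (Hsm.map (IndMod.sum Y K) 0 a)) = 0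
    apply hord
    rw [Hsm.H0equiv_map, inv0.coe_map]
    show ∑ᶠ y : Y, (Hsm.H0equiv a : IndMod Y K) y ∈ U.toAddSubgroup
    exact finsum_induction (· ∈ U.toAddSubgroup) U.toAddSubgroup.zero_mem
      (fun _ _ hx hy => U.toAddSubgroup.add_mem hx hy) ha
  rw [h]
  exact dvd_zero _

/-- `UnrAx` from `LocAx` + Frobenius data + units. -/
def UnrAx.ofLocAx {p : ℕ} (ax : LocAx Γ 𝓝 K p) (F : FrobAx 𝓝 ax.d) (E : UnitAx K F.I)
    (hord : ∀ a : inv0 Γ K, (a : K) ∈ E.U.toAddSubgroup → ax.ord a = 0) : UnrAx 𝓝 K where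
  I := F.I
  I_normal := F.I_normal
  d := ax.d
  d_open := ax.d_open
  d_I := F.d_I
  φ := F.φ
  d_φ := F.d_φ
  dense := F.dense
  U := E.U
  π := E.π
  π_fix := E.π_fix
  π_free := E.π_free
  decomp := E.decomp
  H90 := ax.H90
  unitNorm := fun Y _ _ _ _ _ n _ a ha => unitNorm_of_locAx ax E.U hord Y n a ha

end Fermat.Agent.S55.Loc
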